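/-
S56 / TOP, leaf RESBASIC (task S56-RESBASIC).  Dictionary between `ρbar` and its matrix form
`s = resMatOf ρbar b`: characteristic polynomial, determinant, ramification.
-/
import Fermat.Agent.S56.Interface

set_option autoImplicit false

open Polynomial IsLocalRing

namespace Fermat.Agent.S56

open Fermat.Agent.S53

variable {k : Type} [Field k] (ρbar : ResidualGaloisRep k) (b : Module.Basis (Fin 2) k ρbar.V)

theorem charpoly_resMatOf (σ : Gal) :
    (resMatOf ρbar b σ).charpoly = LinearMap.charpoly (ρbar.ρ σ) := by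
  rw [resMatOf_apply]
  exact LinearMap.charpoly_toMatrix (ρbar.ρ σ) b

theorem det_resMatOf (σ : Gal) : (resMatOf ρbar b σ).det = LinearMap.det (ρbar.ρ σ) := by
  rw [resMatOf_apply]
  exact LinearMap.det_toMatrix b (ρbar.ρ σ)

theorem resMatOf_eq_one_iff (σ : Gal) : resMatOf ρbar b σ = 1 ↔ ρbar.ρ σ = 1 := by
  rw [resMatOf_apply]
  constructor
  · intro h
    apply (LinearMap.toMatrix b b).injective
    rw [h]
    exact (LinearMap.toMatrix_one b).symm
  · intro h
    rw [h]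
    exact LinearMap.toMatrix_one b

theorem unrAt_resMatOf_iff (q : ℕ) : UnrAt (resMatOf ρbar b) q ↔ ρbar.IsUnramifiedAt q := by
  constructor
  · intro h P hP σ hσ
    exact (resMatOf_eq_one_iff ρbar b σ).1 (h P hP σ hσ)
  · intro h P hP σ hσ
    exact (resMatOf_eq_one_iff ρbar b σ).2 (h P hP σ hσ)

/-- `FrobDistinct` is the clause of the frozen statement. -/
theorem frobDistinct_resMatOf_iff (q : ℕ) :
    FrobDistinct (resMatOf ρbar b) q ↔
      ∀ P : ValuationSubring (AlgebraicClosure ℚ), P.LiesOverPrime q →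
        ∀ φ : AlgebraicClosure ℚ ≃ₐ[ℚ] AlgebraicClosure ℚ, P.IsFrobeniusAt φ q →
          ∃ α β : k, α ≠ β ∧ LinearMap.charpoly (ρbar.ρ φ) = (X - C α) * (X - C β) := by
  unfold FrobDistinct
  simp only [charpoly_resMatOf]

/-- The determinant clause of `ResHyp` (use `n = 1`; `(p : k) = 0` so `span {p ^ 1} = ⊥`). -/
theorem det_of_detIsCyclotomic (p : ℕ) [CharP k p]
    (hdet : (GaloisRepAdic.ofResidualGaloisRep ρbar).DetIsCyclotomic p) (σ : Gal) (a : ℕ)
    (h : ∀ μ : AlgebraicClosure ℚ, μ ^ p = 1 → σ μ = μ ^ a) :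
    (resMatOf ρbar b σ).det = (a : k) := by
  rw [det_resMatOf]
  have h1 := hdet.2 1 σ a (by simpa using h)
  have h2 : ((p ^ 1 : ℕ) : k) = 0 := by
    rw [pow_one]
    exact CharP.cast_eq_zero k p
  rw [h2, Ideal.mem_span_singleton, zero_dvd_iff, sub_eq_zero] at h1
  exact h1

theorem charP_residueField {𝒪 : Type} [CommRing 𝒪] [IsLocalRing 𝒪] (p : ℕ) [Fact p.Prime]
    (hp𝒪 : (p : 𝒪) ∈ maximalIdeal 𝒪) : CharP (ResidueField 𝒪) p := by
  have h0 : ((p : ℕ) : ResidueField 𝒪) = 0 := by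
    have h1 : residue 𝒪 (p : 𝒪) = 0 := (residue_eq_zero_iff _).2 hp𝒪
    rwa [map_natCast] at h1
  obtain ⟨c, hc⟩ := CharP.exists (ResidueField 𝒪)
  have h2 : c ∣ p := (CharP.cast_eq_zero_iff (ResidueField 𝒪) c p).1 h0
  rcases (Nat.dvd_prime (Fact.out : p.Prime)).1 h2 with h3 | h3
  · exact absurd h3 (CharP.char_ne_one (ResidueField 𝒪) c)
  · rwa [h3] at hc

end Fermat.Agent.S56
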