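/-
S56 / TOP, leaf RESLINE (task S56-RESLINE).  Irreducibility after an extension of scalars excludes
`k`-rational stable lines.
-/
import Fermat.Agent.S56.Interface

set_option autoImplicit false

namespace Fermat.Agent.S56

open Fermat.Agent.S53
open scoped TensorProduct

variable {k : Type} [Field k] (ρbar : ResidualGaloisRep k) (b : Module.Basis (Fin 2) k ρbar.V)

/-- By contradiction: `w := ∑ v i • b i ≠ 0` satisfies `ρbar σ w = a_σ • w` for `σ ∈ G`
(`LinearMap.toMatrix_mulVec_repr` / `Matrix.toLin`); the `K`-line spanned by `1 ⊗ w` is stable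
under `G`, is not `⊥` (`1 ⊗ w ≠ 0`: use `Algebra.TensorProduct.basis K b`) and not `⊤`
(`finrank = 2`, `finrank_span_singleton`). -/
theorem no_stable_line (K : Type) [Field K] [Algebra k K] (G : Subgroup Gal)
    (h : ∀ V : Submodule K (ρbar.baseChange K).V,
      (∀ σ ∈ G, ∀ x ∈ V, (ρbar.baseChange K).ρ σ x ∈ V) → V = ⊥ ∨ V = ⊤)
    (v : Fin 2 → k) (hv : v ≠ 0) :
    ∃ σ ∈ G, ∀ a : k, (resMatOf ρbar b σ).mulVec v ≠ a • v := by
  classical
  by_contra hcon
  push Not at hcon
  set w : ρbar.V := b.equivFun.symm v with hw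
  have hrepr : ∀ i, b.repr w i = v i := fun i => by
    have := congrFun (b.equivFun.apply_symm_apply v) i
    rwa [Module.Basis.equivFun_apply] at this
  have hreprf : (⇑(b.repr w) : Fin 2 → k) = v := funext hrepr
  have heig : ∀ σ ∈ G, ∃ a : k, ρbar.ρ σ w = a • w := by
    intro σ hσ
    obtain ⟨a, ha⟩ := hcon σ hσ
    refine ⟨a, b.repr.injective (Finsupp.ext fun i => ?_)⟩
    have h1 := congrFun (LinearMap.toMatrix_mulVec_repr b b (ρbar.ρ σ) w) i
    rw [hreprf] at h1
    rw [resMatOf_apply] at ha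
    rw [← h1, ha, map_smul, Finsupp.smul_apply, hrepr, Pi.smul_apply]
  set t : (ρbar.baseChange K).V := (1 : K) ⊗ₜ[k] w with ht
  have ht0 : t ≠ 0 := by
    intro h0
    obtain ⟨i, hi⟩ := Function.ne_iff.1 hv
    have h1 := DFunLike.congr_fun (Algebra.TensorProduct.basis_repr_tmul (A := K) b (1 : K) w) i
    have h2 : ((1 : K) ⊗ₜ[k] w : TensorProduct k K ρbar.V) = 0 := h0
    rw [h2, map_zero, Finsupp.zero_apply, one_smul, Finsupp.mapRange_apply, hrepr] at h1
    exact hi ((map_eq_zero (algebraMap k K)).1 h1.symm)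
  rcases h (Submodule.span K {t}) (by
    intro σ hσ x hx
    obtain ⟨c, rfl⟩ := Submodule.mem_span_singleton.1 hx
    obtain ⟨a, ha⟩ := heig σ hσ
    rw [map_smul]
    refine Submodule.smul_mem _ _ (Submodule.mem_span_singleton.2 ⟨algebraMap k K a, ?_⟩)
    change algebraMap k K a • ((1 : K) ⊗ₜ[k] w) = (ρbar.ρ σ).baseChange K ((1 : K) ⊗ₜ[k] w)
    rw [LinearMap.baseChange_tmul, ha, TensorProduct.tmul_smul, algebraMap_smul]) with hbot | htop
  · exact ht0 ((Submodule.span_singleton_eq_bot).1 hbot)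
  · have h1 := finrank_span_singleton (K := K) ht0
    rw [htop, finrank_top, (ρbar.baseChange K).finrank_eq] at h1
    omega

end Fermat.Agent.S56
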