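/-
S56 / TOP, leaf T-B (helper234): the module `Ad0 s` has no invariants.
-/
import Fermat.Agent.S56.Interface
import Fermat.Agent.S56.Sel.NoAdLine

set_option autoImplicit false

namespace Fermat.Agent.S56.Top

open Fermat.Agent.S55 Fermat.Agent.S56
open Fermat.Agent.S53 (M2 Gal)
open Matrix

variable {k : Type} [Field k] {p : ℕ}

theorem ad0Fix_two_ne_zero [CharP k p] (hp2 : p ≠ 2) : (2 : k) ≠ 0 := by
  intro h
  have h1 : ((2 : ℕ) : k) = 0 := by exact_mod_cast h
  rw [CharP.cast_eq_zero_iff k p 2] at h1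
  rcases (Nat.dvd_prime Nat.prime_two).1 h1 with h | h
  · exact CharP.char_ne_one k p h
  · exact hp2 h

theorem ad0Fix_trace_det (B : M2 k) (α β : k)
    (h : B.charpoly = (Polynomial.X - Polynomial.C α) * (Polynomial.X - Polynomial.C β)) :
    B.trace = α + β ∧ B.det = α * β := by
  rw [Matrix.charpoly_fin_two] at h
  have h0 := congrArg (Polynomial.eval 0) h
  have h1 := congrArg (Polynomial.eval 1) h
  simp at h0 h1
  refine ⟨?_, h0⟩
  linear_combination h0 - h1

/-- a trace zero matrix commuting with an irreducible family with split characteristic polynomials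
vanishes -/
theorem ad0Fix_core (h2 : (2 : k) ≠ 0) {ι : Type} (r : ι → M2 k)
    (hsplit : ∀ g, ∃ α β : k, (r g).trace = α + β ∧ (r g).det = α * β)
    (hirr : ∀ v : Fin 2 → k, v ≠ 0 → ∃ g, ∀ a : k, (r g) *ᵥ v ≠ a • v)
    (X : M2 k) (htr : X.trace = 0) (hcomm : ∀ g, r g * X = X * r g) : X = 0 := by
  by_contra hX
  by_cases hdet : X.det = 0
  · obtain ⟨v, hv, hv'⟩ := Sel.NoAdLine.exists_line X hX hdet
    obtain ⟨g, hg⟩ := hirr v hv
    obtain ⟨t, ht⟩ := hv' (r g) (r g) (hcomm g)
    exact hg t ht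
  · by_cases hsq : ∃ l : k, -X.det = l ^ 2
    · obtain ⟨l, hl⟩ := hsq
      have hM : X + l • (1 : M2 k) ≠ 0 := by
        intro h0
        have h1 := congrArg Matrix.trace h0
        rw [Matrix.trace_add, htr, zero_add, Matrix.trace_smul, Matrix.trace_one, Fintype.card_fin,
          Matrix.trace_zero, smul_eq_mul] at h1
        have h3 : l = 0 := by
          rcases mul_eq_zero.1 h1 with h | h
          · exact h
          · exact absurd (by exact_mod_cast h) h2
        apply hdet
        rw [h3] at hl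
        linear_combination -hl
      have hMdet : (X + l • (1 : M2 k)).det = 0 := by
        rw [Sel.NoAdLine.det_add_smul_one, htr]
        linear_combination -hl
      obtain ⟨v, hv, hv'⟩ := Sel.NoAdLine.exists_line _ hM hMdet
      obtain ⟨g, hg⟩ := hirr v hv
      obtain ⟨t, ht⟩ := hv' (r g) (r g) (by
        rw [mul_add, add_mul, hcomm g, mul_smul_comm, smul_mul_assoc, mul_one, one_mul])
      exact hg t ht
    · have hv : (![1, 0] : Fin 2 → k) ≠ 0 := by
        intro h
        have := congrFun h 0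
        simp at this
      obtain ⟨g, hg⟩ := hirr _ hv
      obtain ⟨α, β, h1, h2'⟩ := hsplit g
      rcases Sel.NoAdLine.scalar_or_line (r g) α β h1 h2' with h | ⟨w, hw, hw'⟩
      · exact hg β (by rw [h, Matrix.smul_mulVec, Matrix.one_mulVec])
      · obtain ⟨t, ht⟩ := hw' X (hcomm g).symm
        exact hsq ⟨t, Sel.NoAdLine.neg_det_eq_sq X htr w hw t ht⟩

/-- T-B. -/
theorem ad0_fix_eq_zero' [CharP k p] (hp2 : p ≠ 2) {s : Gal →* M2 k} (hs : ResHyp p s)
    (m : Ad0 s) (hm : ∀ g : GQ, g • m = m) : m = 0 := by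
  have hcomm : ∀ g : Gal, s g * m.mat = m.mat * s g := by
    intro g
    have h1 := congrArg Ad0.mat (hm g)
    rw [Ad0.mat_smul] at h1
    calc s g * m.mat = s g * m.mat * (s g⁻¹ * s g) := by
          rw [← map_mul, inv_mul_cancel, map_one, mul_one]
      _ = (s g * m.mat * s g⁻¹) * s g := by simp only [mul_assoc]
      _ = m.mat * s g := by rw [h1]
  have h0 : m.mat = 0 := by
    refine ad0Fix_core (ad0Fix_two_ne_zero (k := k) hp2) (fun g : Gal => s g) (fun g => ?_)
      (fun v hv => ?_) m.mat m.trace_mat hcomm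
    · obtain ⟨α, β, h⟩ := hs.split g
      exact ⟨α, β, ad0Fix_trace_det _ α β h⟩
    · obtain ⟨σ, -, hσ⟩ := hs.irr ⊤ (Or.inl rfl) v hv
      exact ⟨σ, hσ⟩
  exact Ad0.ext h0

end Fermat.Agent.S56.Top
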