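/-
S56 / TOP, leaves T-A, T-B (chief helper6): the module `Ad0 s` is a coefficient module, and has no
invariants.
-/
import Fermat.Agent.S56.Top.Ad0Fix
import Fermat.Agent.S56.Interface
import Fermat.Agent.S55.Bridge.SmoothRep

set_option autoImplicit false

namespace Fermat.Agent.S56.Top

open Fermat.Agent.S55 Fermat.Agent.S56
open Fermat.Agent.S53 (M2 Gal)

variable {k : Type} [Field k] {p : ℕ}

private theorem isCoef_ad0_stable (F : IntermediateField ℚ (AlgebraicClosure ℚ))
    (h : Normal ℚ F) : IsStableField F := by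
  intro g x hx
  have : IsAlgClosure ℚ (AlgebraicClosure ℚ) := ⟨inferInstance, AlgebraicClosure.isAlgebraic ℚ⟩
  have : Normal ℚ (AlgebraicClosure ℚ) := IsAlgClosure.normal ℚ (AlgebraicClosure ℚ)
  have h1 := (IntermediateField.normal_iff_forall_map_le' (K := F)).1 h g
  exact h1 ⟨x, hx, rfl⟩

/-- T-A.  Proof: `Finite` is an instance, `p • x = 0` entrywise from `CharP k p`; smoothness:
`K := s.ker` is normal, contains the fixing subgroup of the field `L` of `hs.fin` and all the inertia
groups outside `S` (`hunr`), so `Bridge.exists_level_of_normal_subgroup` gives a level `F`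
of `lvlS S` with `F.fixingSubgroup = K`, and `K` acts trivially on `Ad0 s`. -/
theorem isCoef_ad0 [Finite k] [CharP k p] {s : Gal →* M2 k} (hs : ResHyp p s)
    (S : Finset Nat.Primes) (hunr : ∀ q : Nat.Primes, q ∉ S → UnrAt s q) :
    IsCoef S p (Ad0 s) := by
  refine ⟨inferInstance, fun x => ?_, ⟨fun a => ?_⟩⟩
  · apply Ad0.ext
    let φ : Ad0 s →+ M2 k := ⟨⟨Ad0.mat, rfl⟩, fun _ _ => rfl⟩
    have h1 : (p • x).mat = p • x.mat := map_nsmul φ p x
    rw [h1, Ad0.mat_zero]
    ext i j
    rw [Matrix.smul_apply, nsmul_eq_mul, CharP.cast_eq_zero, zero_mul, Matrix.zero_apply]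
  · obtain ⟨L, hLfin, hL⟩ := hs.fin
    haveI := hLfin
    obtain ⟨F, hF1, hF2, hF3⟩ := Bridge.exists_level_of_normal_subgroup S s.ker L
      (by
        intro σ hσ
        rw [MonoidHom.mem_ker]
        exact hL σ fun x hx => (IntermediateField.mem_fixingSubgroup_iff _ _).1 hσ x hx)
      (fun q hq A hA σ hσ => MonoidHom.mem_ker.2 (hunr q hq A hA σ hσ))
    refine ⟨F.fixingSubgroup, ⟨F, hF1, isCoef_ad0_stable F hF2, rfl⟩, fun n hn => ?_⟩
    have h1 : s n = 1 := MonoidHom.mem_ker.1 (hF3 ▸ hn)
    have h2 : s n⁻¹ = 1 := by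
      have h3 := Ad0.inv_mul_self (r := s) n
      rwa [h1, mul_one] at h3
    apply Ad0.ext
    rw [Ad0.mat_smul, h1, h2, one_mul, mul_one]

/-- T-B.  Proof: let `X = m.mat ≠ 0`, `tr X = 0`, commuting with all `s g`; `X² = -det X`.
If `det X = 0`: `X² = 0`, a nonzero vector `v = X w` spans a stable line (`s g v = X (s g w)` lies
in the range of `X`, which is the line `k v`).  If `-det X = d²`, `d ≠ 0`: some `v = (X + d) w ≠ 0`
(`X ≠ -d` because `tr X = 0`, `2 ≠ 0`), `X v = d v`, the eigenspace of `d` is a line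
(`X ≠ d`) stable under all `s g`.  If `-det X` is not a square: for every `g`, with `α` a root
of the characteristic polynomial of `s g` (`hs.split`), `Y = s g - α` is singular and commutes with
`X`; if `Y ≠ 0` its kernel is a line stable under `X`, so `X` has an eigenvalue `d` in `k`,
`d² = -det X`: contradiction; so every `s g` is scalar and every line is stable.
All cases contradict `hs.irr ⊤`. -/
theorem ad0_fix_eq_zero [CharP k p] (hp2 : p ≠ 2) {s : Gal →* M2 k} (hs : ResHyp p s)
    (m : Ad0 s) (hm : ∀ g : GQ, g • m = m) : m = 0 :=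
  ad0_fix_eq_zero' hp2 hs m hm

end Fermat.Agent.S56.Top
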