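/-
S56 / TOP, leaf T-D (chief helper6): choosing pairwise distinct primes.
-/
import Mathlib

set_option autoImplicit false

namespace Fermat.Agent.S56.Top

/-- T-D.  Induction on `r` (`Fin.snoc` / `Fin.cons`): choose the new prime outside the image of the
previous ones. -/
theorem exists_injective_choice (r : ℕ) (P : Fin r → Nat.Primes → Prop)
    (h : ∀ i (T : Finset ℕ), ∃ q : Nat.Primes, (q : ℕ) ∉ T ∧ P i q) :
    ∃ qv : Fin r → Nat.Primes, Function.Injective qv ∧ ∀ i, P i (qv i) := by
  induction r with
  | zero => exact ⟨Fin.elim0, fun i => i.elim0, fun i => i.elim0⟩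
  | succ r ih =>
    obtain ⟨qv, hinj, hqv⟩ := ih (fun i => P i.succ) (fun i T => h i.succ T)
    obtain ⟨q, hq, hPq⟩ := h 0 (Finset.univ.image fun i => ((qv i : Nat.Primes) : ℕ))
    have hne : ∀ i, q ≠ qv i := by
      intro i hi
      apply hq
      rw [hi]
      exact Finset.mem_image_of_mem _ (Finset.mem_univ i)
    refine ⟨Fin.cons q qv, ?_, ?_⟩
    · rw [Fin.cons_injective_iff]
      refine ⟨?_, hinj⟩
      rintro ⟨i, hi⟩
      exact hne i hi.symm
    · intro i
      refine Fin.cases ?_ (fun j => ?_) i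
      · exact hPq
      · exact hqv j

end Fermat.Agent.S56.Top
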