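/-
S56 / TOP, leaf T-C (chief helper6): the minus part of `ad⁰(1)` under complex conjugation.
-/
import Fermat.Agent.S56.Interface
import Fermat.Agent.S55.Bridge.MuCoef

set_option autoImplicit false

namespace Fermat.Agent.S56.Top

open Fermat.Agent.S55 Fermat.Agent.S56
open Fermat.Agent.S53 (M2 Gal)

variable {k : Type} [Field k] {p : ℕ}

/-- `cc` inverts the `p`-th roots of unity of `Qb`. -/
private theorem minus_apply_root [Fact p.Prime] (cc : GQ) (hμ : ∀ z : Mu p, cc • z = -z)
    (μ : AlgebraicClosure ℚ) (h : μ ^ p = 1) : cc μ = μ ^ (p - 1) := by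
  have hp : p.Prime := Fact.out
  have hμ0 : μ ≠ 0 := by
    rintro rfl
    rw [zero_pow hp.ne_zero] at h
    exact zero_ne_one h
  let u : Kx := Additive.ofMul (Units.mk0 μ hμ0)
  have huv : u.val = μ := rfl
  have hmem : u ∈ (muSub p).toAddSubgroup := by
    change p • u = 0
    apply Bridge.Kx_val_injective
    rw [Bridge.Kx_val_nsmul, huv, h, Kx.val_zero]
  have h1 := congrArg (fun z => ((muSub p).incl z).val) (hμ ((muSub p).mkMod u hmem))
  simp only [GSub.incl_smul, GSub.incl_mkMod, map_neg, Kx.val_smul, Kx.val_neg] at h1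
  rw [huv] at h1
  rw [h1]
  apply inv_eq_of_mul_eq_one_right
  rw [← pow_succ', Nat.sub_add_cancel hp.one_le, h]

/-- a `2 × 2` matrix with `A² = 1`, `det A = -1` has trace zero. -/
private theorem minus_trace_eq_zero {A : M2 k} (h2 : A * A = 1) (hd : A.det = -1) :
    A.trace = 0 := by
  have e00 := congrFun (congrFun h2 0) 0
  have e11 := congrFun (congrFun h2 1) 1
  rw [Matrix.mul_apply, Fin.sum_univ_two, Matrix.one_apply_eq] at e00 e11
  rw [Matrix.det_fin_two] at hd
  rw [Matrix.trace_fin_two]
  have h3 : (A 0 0 + A 1 1) ^ 2 = 0 := by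
    linear_combination e00 + e11 + 2 * hd
  exact pow_eq_zero_iff (two_ne_zero) |>.1 h3

/-- T-C.  `A := s cc` satisfies `A² = 1` and `det A = -1` (`hs.det` with `a = p - 1`: `cc` acts on
`μ_p` by inversion, translate `hμ` to roots of unity of `Qb`), hence `tr A = 0`
(Cayley-Hamilton: `A² - tr A · A + det A = 0`, so `tr A · A = 0`).  `A` itself is an element `h` of `Ad0 s`
fixed by `cc`.  For `f : Nd s p`, `(cc • f) m = cc • f (cc⁻¹ • m) = - f (cc • m)`.  So `cc • f = -f` iff
`f (cc • m) = f m` for all `m`.  The map `π : m ↦ m + cc • m` has values in the line `k A`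
(`X + A X A` commutes with `A` and has trace `0`); every additive `φ : k → Mu p` gives
`f_φ (m) := φ (tr (m.mat * A))`, which satisfies `f_φ (cc • m) = f_φ m`; `φ ↦ f_φ` is injective
because `tr (c A * A) = 2 c`; and `#Hom(k, Mu p) ≥ #k` (`Count.Perfect`: the dual of a finite group
killed by `p` has the same cardinality; or count with a basis over `ZMod p`). -/
theorem card_le_card_minus [Finite k] [Fact p.Prime] [CharP k p] (hp2 : p ≠ 2) {s : Gal →* M2 k}
    (hs : ResHyp p s) (cc : GQ) (hcc : cc * cc = 1) (hμ : ∀ z : Mu p, cc • z = -z) :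
    Nat.card k ≤ Nat.card {n : Nd s p // cc • n = -n} := by
  classical
  have hp : p.Prime := Fact.out
  -- the matrix `A`
  have hA2 : s cc * s cc = 1 := by rw [← map_mul, hcc, map_one]
  have hinv : cc⁻¹ = cc := inv_eq_of_mul_eq_one_right hcc
  have hdet : (s cc).det = -1 := by
    rw [hs.det cc (p - 1) (minus_apply_root cc hμ), Nat.cast_sub hp.one_le, CharP.cast_eq_zero,
      Nat.cast_one, zero_sub]
  have htr : (s cc).trace = 0 := minus_trace_eq_zero hA2 hdet
  have h2k : (2 : k) ≠ 0 := by
    intro h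
    have h1 : ((2 : ℕ) : k) = 0 := by exact_mod_cast h
    rw [CharP.cast_eq_zero_iff k p] at h1
    exact hp2 ((Nat.prime_dvd_prime_iff_eq hp Nat.prime_two).1 h1)
  -- `μ_p` as a vector space over `ZMod p`
  obtain ⟨ζ, hζ0, hgen, hpζ, -⟩ := Bridge.exists_generator_Mu p
  have hkill : ∀ x : Mu p, p • x = 0 := by
    intro x
    obtain ⟨n, rfl⟩ := hgen x
    rw [smul_comm, hpζ, smul_zero]
  letI : Module (ZMod p) (Mu p) := AddCommGroup.zmodModule hkill
  letI : Algebra (ZMod p) k := ZMod.algebra k p
  have hfinMu : Finite (Mu p) :=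
    Nat.finite_of_card_ne_zero (by rw [Bridge.cardMu p]; exact hp.ne_zero)
  have hfinNd : Finite (Nd s p) :=
    Finite.of_injective (fun f : Nd s p => (f : Ad0 s → Mu p)) DFunLike.coe_injective
  -- the family `f_c`
  let F : k → Nd s p := fun c => HomMod.of
    { toFun := fun m => (Algebra.trace (ZMod p) k (c * (m.mat * s cc).trace)) • ζ
      map_zero' := by simp
      map_add' := fun m m' => by
        rw [Ad0.mat_add, add_mul, Matrix.trace_add, mul_add, map_add, add_smul] }
  have hF : ∀ c m, F c m = (Algebra.trace (ZMod p) k (c * (m.mat * s cc).trace)) • ζ :=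
    fun _ _ => rfl
  have hFminus : ∀ c, cc • F c = - F c := by
    intro c
    ext m
    rw [HomMod.smul_apply, hμ, HomMod.neg_apply, hinv, hF, hF, Ad0.mat_smul, hinv]
    congr 4
    rw [mul_assoc, hA2, mul_one, Matrix.trace_mul_comm]
  have hinj : Function.Injective (fun c => (⟨F c, hFminus c⟩ : {n : Nd s p // cc • n = -n})) := by
    intro c c' h
    have h1 : F c = F c' := congrArg Subtype.val h
    by_contra hne
    have hd : c - c' ≠ 0 := sub_ne_zero.2 hne
    obtain ⟨y, hy⟩ := Algebra.trace_surjective (ZMod p) k 1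
    let m : Ad0 s := Ad0.mk ((y / (2 * (c - c'))) • s cc) (by rw [Matrix.trace_smul, htr, smul_zero])
    have hm : (m.mat * s cc).trace = y / (c - c') := by
      rw [Ad0.mat_mk, Matrix.smul_mul, hA2, Matrix.trace_smul, Matrix.trace_one, Fintype.card_fin,
        smul_eq_mul]
      push_cast
      field_simp
    have h2 := congrArg (fun f : Nd s p => f m) h1
    simp only [hF, hm] at h2
    rw [← sub_eq_zero, ← sub_smul, ← map_sub, ← sub_mul, mul_div_cancel₀ _ hd, hy, one_smul] at h2
    exact hζ0 h2
  exact Nat.card_le_card_of_injective _ hinj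

end Fermat.Agent.S56.Top
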