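/-
S56 / TOP, leaf T-G (chief helper6): the tangent bound from a bound for a Selmer group.
-/
import Fermat.Agent.S56.Interface
import Fermat.Agent.S56.Count.Defs

set_option autoImplicit false

namespace Fermat.Agent.S56.Top

open Fermat.Agent.S55 Fermat.Agent.S56 IsLocalRing
open Fermat.Agent.S53 (M2 Gal MatCont toAdic Dk)

/-- T-G.  `X := Sel S L`, `x₀ := 0`, `f c :=` the class of a cocycle `c'` with `(c' g).mat = c g`
(`hcoc`, `Classical.choose`).  `f c = f c'` gives `a : Ad0 s` with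
`c g - c' g = g • a - a` (`Coc.cls_eq_cls_iff`), i.e. `IsCob s (c - c')` with `m = a.mat`. -/
theorem tangentBound_of_sel {𝒪 : Type} [CommRing 𝒪] [IsLocalRing 𝒪] (𝒟 : Cond 𝒪)
    (s : Gal →* M2 (ResidueField 𝒪)) (r : ℕ) (S : Finset Nat.Primes)
    (L : Count.LocCond S (Ad0 s)) (hfin : Finite (Count.Sel S L))
    (hcard : Nat.card (Count.Sel S L) ≤ Nat.card (ResidueField 𝒪) ^ r)
    (hcoc : ∀ c : Gal → M2 (ResidueField 𝒪), IsDCoc 𝒟 s c →
      ∃ c' : Coc (lvlS S) (Ad0 s), (∀ g, (c' g).mat = c g) ∧ c'.cls ∈ Count.Sel S L) :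
    TangentBound 𝒟 s r := by
  choose c' hc' hmem using hcoc
  refine ⟨↥(Count.Sel S L), hfin, fun c => ⟨(c' c.1 c.2).cls, hmem c.1 c.2⟩, 0, hcard, ?_, ?_⟩
  · intro c d h
    have h1 : (c' c.1 c.2).cls = (c' d.1 d.2).cls := congrArg Subtype.val h
    obtain ⟨a, ha⟩ := (Coc.cls_eq_cls_iff _ _).1 h1
    refine ⟨a.mat, fun g => ?_⟩
    have h2 := congrArg Ad0.mat (ha g)
    rw [Ad0.mat_sub, Ad0.mat_sub, Ad0.mat_smul, hc', hc'] at h2
    exact h2
  · intro c h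
    have h1 : (c' c.1 c.2).cls = 0 := congrArg Subtype.val h
    obtain ⟨a, ha⟩ := (Coc.cls_eq_zero_iff _).1 h1
    refine ⟨a.mat, fun g => ?_⟩
    have h2 := congrArg Ad0.mat (ha g)
    rw [Ad0.mat_sub, Ad0.mat_smul, hc'] at h2
    exact h2

end Fermat.Agent.S56.Top
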