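/-
S56 / TOP (chief helper6): GLUE.  All the block statements of `S56/Interface.lean` + the export of block
COUNT  ⟹  `ArithStatement`.
-/
import Fermat.Agent.S56.Interface
import Fermat.Agent.S56.Top.Ad0Coef
import Fermat.Agent.S56.Top.Minus
import Fermat.Agent.S56.Top.Choice
import Fermat.Agent.S56.Top.TangentOfSel
import Fermat.Agent.S56.Count.Top
import Fermat.Agent.S56.Count.Perfect
import Fermat.Agent.S56.Count.LvlMono
import Fermat.Agent.S55.Formal.F1.HomFun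

set_option autoImplicit false

namespace Fermat.Agent.S56.Top

open Fermat.Agent.S55 Fermat.Agent.S56 IsLocalRing
open Fermat.Agent.S53 (M2 Gal MatCont toAdic Dk)

/-- The set of primes of a finite set of natural numbers. -/
def toP (T : Finset ℕ) : Finset Nat.Primes := T.subtype Nat.Prime

theorem mem_toP {T : Finset ℕ} {q : Nat.Primes} : q ∈ toP T ↔ (q : ℕ) ∈ T := Finset.mem_subtype

section

variable {𝒪 : Type} [CommRing 𝒪] [IsLocalRing 𝒪] [Finite (ResidueField 𝒪)] {p : ℕ}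
  [hp : Fact p.Prime] [CharP (ResidueField 𝒪) p]

/-- One half of `ArithStatement`, for a condition `Pp` at `p`. -/
theorem arithHalf (hp2 : p ≠ 2)
    (hContract : ∀ S : Finset Nat.Primes, ExtCitation.pPrime p ∈ S → Nonempty (Contract S p))
    (hEC : ECStatement p) (hSel : SelStatement) (hMin : LocMinStatement) (hTW : LocTWStatement)
    (hBr : BridgeStatement)
    (s : Gal →* M2 (ResidueField 𝒪)) (hs : ResHyp p s)
    (S Smin : Finset ℕ) (hpSmin : p ∈ Smin) (hSmin : Smin ⊆ S) (hS : ∀ q ∈ S, q.Prime)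
    (hmin : ∀ q : ℕ, q.Prime → q ≠ p → (q ∈ Smin ↔ ¬ UnrAt s q))
    (Pp : GaloisRepAdic (Dk 𝒪) → Prop)
    (hLp : LocalBound s ⟨p, hp.out⟩ (fun ρ => ρ.DetIsCyclotomic p ∧ Pp ρ)
      (Nat.card (ResidueField 𝒪)))
    (𝒟 : Finset ℕ → Cond 𝒪)
    (h𝒟 : ∀ (T : Finset ℕ) (ρ : GaloisRepAdic (Dk 𝒪)), 𝒟 T ρ →
      ρ.DetIsCyclotomic p ∧ Pp ρ ∧ (∀ q : ℕ, q.Prime → q ∉ T → ρ.IsUnramifiedAt q) ∧
        ∀ q ∈ Smin, q.Prime → q ≠ p → ρ.IsUnipotentOnInertiaAt q) :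
    ArithHalf p s S Smin 𝒟 := by
  classical
  set pp : Nat.Primes := ⟨p, hp.out⟩ with hpp
  set S₀ : Finset Nat.Primes := toP Smin with hS₀
  have hpS₀ : pp ∈ S₀ := mem_toP.2 hpSmin
  have hunr₀ : ∀ q : Nat.Primes, q ∉ S₀ → UnrAt s q := by
    intro q hq
    have hq' : (q : ℕ) ∉ Smin := fun h => hq (mem_toP.2 h)
    have hqp : (q : ℕ) ≠ p := fun h => hq' (h ▸ hpSmin)
    by_contra hcon
    exact hq' ((hmin q q.2 hqp).2 hcon)
  have hM : IsCoef S₀ p (Ad0 s) := isCoef_ad0 hs S₀ hunr₀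
  have hμ : IsCoef S₀ p (Mu p) := Bridge.coefMu S₀ hpS₀
  have hN : IsCoef S₀ p (Nd s p) := F1.isCoef_homMod hM hμ
  have : Smooth (lvlS S₀) (Ad0 s) := hM.smooth
  have hMall : Smooth lvlAll (Ad0 s) := smooth_lvlAll_of_lvlS S₀ (Ad0 s)
  -- the local conditions
  have hLB : ∀ q : ↥S₀, ∃ L : AddSubgroup (Hloc q.1 (Ad0 s) 1), Finite L ∧
      Nat.card L ≤ (if q = ⟨pp, hpS₀⟩ then Nat.card (ResidueField 𝒪) else 1) *
        Nat.card (Hloc q.1 (Ad0 s) 0) ∧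
      ∀ (S' : Finset Nat.Primes) (c : Coc (lvlS S') (Ad0 s)) (r : Gal →* M2 (Dk 𝒪))
        (hr : MatCont r), IsLiftOf s c r → (∃ T, 𝒟 T (toAdic r hr)) →
          locS S' (Ad0 s) q.1 1 c.cls ∈ L := by
    rintro ⟨q, hq⟩
    by_cases hqp : q = pp
    · subst hqp
      obtain ⟨L, h1, h2, h3⟩ := hLp
      refine ⟨L, h1, by simpa using h2, fun S' c r hr hl hT => h3 S' c r hr hl ?_⟩
      obtain ⟨T, hT⟩ := hT
      exact ⟨(h𝒟 T _ hT).1, (h𝒟 T _ hT).2.1⟩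
    · have hqp' : (q : ℕ) ≠ p := fun h => hqp (Subtype.ext h)
      have hram : ¬ UnrAt s q := (hmin q q.2 hqp').1 (mem_toP.1 hq)
      obtain ⟨L, h1, h2, h3⟩ := hMin 𝒪 p hp2 s hs q hqp' hram
      have hne : (⟨q, hq⟩ : ↥S₀) ≠ ⟨pp, hpS₀⟩ := fun h => hqp (congrArg Subtype.val h)
      refine ⟨L, h1, by simpa [hne] using h2, fun S' c r hr hl hT => h3 S' c r hr hl ?_⟩
      obtain ⟨T, hT⟩ := hT
      exact (h𝒟 T _ hT).2.2.2 q (mem_toP.1 hq) q.2 hqp'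
  choose L₀ hL₀fin hL₀card hL₀mem using hLB
  have hloc₀ : ∏ q : ↥S₀, Nat.card (L₀ q) ≤
      Nat.card (ResidueField 𝒪) * ∏ q : ↥S₀, Nat.card (Hloc q.1 (Ad0 s) 0) := by
    calc ∏ q : ↥S₀, Nat.card (L₀ q)
        ≤ ∏ q : ↥S₀, ((if q = ⟨pp, hpS₀⟩ then Nat.card (ResidueField 𝒪) else 1) *
            Nat.card (Hloc q.1 (Ad0 s) 0)) :=
          Finset.prod_le_prod (fun _ _ => Nat.zero_le _) (fun q _ => hL₀card q)
      _ = Nat.card (ResidueField 𝒪) * ∏ q : ↥S₀, Nat.card (Hloc q.1 (Ad0 s) 0) := by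
          rw [Finset.prod_mul_distrib, Finset.prod_ite_eq' Finset.univ (⟨pp, hpS₀⟩ : ↥S₀)
            (fun _ => Nat.card (ResidueField 𝒪)), if_pos (Finset.mem_univ _)]
  -- the dual Selmer group
  let e : FB.GPair GQ (Nd s p) (Ad0 s) (Mu p) := (FB.GPair.ev GQ (Ad0 s) (Mu p)).flip
  have he : e.IsPerfect := Count.ev_flip_isPerfect hM.ptors (Bridge.cardMu p)
  obtain ⟨cc, hcc1, hccμ, hECall⟩ := hEC
  have hfin₀ : Finite (Hsm (lvlS S₀) (Nd s p) 1) := (hECall S₀ ⟨pp, hpS₀, rfl⟩ (Nd s p) hN).1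
  obtain ⟨r, ⟨en⟩⟩ : ∃ r : ℕ, Nonempty (Fin r ≃
      {b : Hsm (lvlS S₀) (Nd s p) 1 // b ∈ Count.DSel S₀ e L₀ ∧ b ≠ 0}) :=
    ⟨_, ⟨(Finite.equivFin _).symm⟩⟩
  refine ⟨r, fun n => ?_⟩
  obtain ⟨qv, hinj, hqv⟩ := exists_injective_choice r
    (fun i q => (q : ℕ) ∉ S ∧ q ∉ S₀ ∧ p ^ (n + 1) ∣ (q : ℕ) - 1 ∧ UnrAt s q ∧ FrobDistinct s q ∧
      locS S₀ (Nd s p) q 1 (en i).1 ≠ 0) (fun i T => by
      obtain ⟨q, h1, h2, h3, h4, h5, h6⟩ :=
        hSel (ResidueField 𝒪) p hp2 s hs S₀ (en i).1 (en i).2.2 n (T ∪ S)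
      exact ⟨q, fun h => h1 (Finset.mem_union_left _ h),
        fun h => h1 (Finset.mem_union_right _ h), h2, h3, h4, h5, h6⟩)
  refine ⟨fun i => (qv i : ℕ), fun i j h => hinj (Subtype.ext h),
    fun i => ⟨(qv i).2, (hqv i).1, (hqv i).2.2.1⟩, fun i => (hqv i).2.2.2.2.1, ?_⟩
  -- the tangent bound
  set T : Finset ℕ := Smin ∪ Finset.univ.image (fun i => (qv i : ℕ)) with hT
  set SQ : Finset Nat.Primes := S₀ ∪ Finset.univ.image qv with hSQdef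
  have hSQ : ∀ q : Nat.Primes, (q : ℕ) ∈ T → q ∈ SQ := by
    intro q hq
    rcases Finset.mem_union.1 hq with h | h
    · exact Finset.mem_union_left _ (mem_toP.2 h)
    · obtain ⟨i, -, hi⟩ := Finset.mem_image.1 h
      exact Finset.mem_union_right _ (Finset.mem_image.2 ⟨i, Finset.mem_univ _, Subtype.ext hi⟩)
  have hsub : S₀ ⊆ SQ := Finset.subset_union_left
  obtain ⟨C⟩ := hContract SQ (hsub hpS₀)
  have hNQ : IsCoef SQ p (Nd s p) := Count.IsCoef.mono hsub hN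
  have hECQ := hECall SQ ⟨pp, hsub hpS₀, rfl⟩ (Nd s p) hNQ
  have hκ : Nat.card (Hsm (lvlS SQ) (Nd s p) 2) * Nat.card (ResidueField 𝒪) ≤
      Nat.card (Hsm (lvlS SQ) (Nd s p) 1) :=
    le_trans (Nat.mul_le_mul_left _ (card_le_card_minus hp2 hs cc hcc1 hccμ)) hECQ.2.2
  have hmemQ : ∀ q ∈ SQ, q ∉ S₀ → ∃ i, qv i = q := by
    intro q hq hq0
    rcases Finset.mem_union.1 hq with h | h
    · exact absurd h hq0
    · obtain ⟨i, -, hi⟩ := Finset.mem_image.1 h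
      exact ⟨i, hi⟩
  have hlocQ : ∀ q ∈ SQ, q ∉ S₀ → Finite (Hloc q (Ad0 s) 1) ∧
      Nat.card (Hloc q (Ad0 s) 1) ≤ Nat.card (ResidueField 𝒪) * Nat.card (Hloc q (Ad0 s) 0) := by
    intro q hq hq0
    obtain ⟨i, rfl⟩ := hmemQ q hq hq0
    exact hTW (ResidueField 𝒪) p hp2 s hs (qv i)
      (dvd_trans (dvd_pow_self p (Nat.succ_ne_zero n)) (hqv i).2.2.1) (hqv i).2.2.2.1
      (hqv i).2.2.2.2.1
  have hsel : ∀ b₀ ∈ Count.DSel S₀ e L₀, b₀ ≠ 0 →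
      ∃ q ∈ SQ, q ∉ S₀ ∧ locS S₀ (Nd s p) q 1 b₀ ≠ 0 := by
    intro b₀ hb hne
    refine ⟨qv (en.symm ⟨b₀, hb, hne⟩), Finset.mem_union_right _
      (Finset.mem_image.2 ⟨_, Finset.mem_univ _, rfl⟩), (hqv _).2.1, ?_⟩
    have := (hqv (en.symm ⟨b₀, hb, hne⟩)).2.2.2.2.2
    rwa [Equiv.apply_symm_apply] at this
  have key := Count.card_Sel_extend_le hsub ⟨pp, hpS₀⟩ C hN hM e he (ad0_fix_eq_zero hp2 hs)
    (Nat.card (ResidueField 𝒪)) Nat.card_pos hκ L₀ hL₀fin hloc₀ hlocQ hsel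
  have hcardSQ : (SQ \ S₀).card = r := by
    have h1 : SQ \ S₀ = Finset.univ.image qv := by
      ext q
      constructor
      · intro hq
        obtain ⟨i, hi⟩ := hmemQ q (Finset.mem_sdiff.1 hq).1 (Finset.mem_sdiff.1 hq).2
        exact Finset.mem_image.2 ⟨i, Finset.mem_univ _, hi⟩
      · intro hq
        obtain ⟨i, -, rfl⟩ := Finset.mem_image.1 hq
        exact Finset.mem_sdiff.2 ⟨Finset.mem_union_right _ hq, (hqv i).2.1⟩
    rw [h1, Finset.card_image_of_injective _ hinj, Finset.card_univ, Fintype.card_fin]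
  have key2 : Nat.card (Count.Sel SQ (Count.LocCond.extend L₀ SQ)) ≤ Nat.card (ResidueField 𝒪) ^ r := by
    have h := key.2
    rwa [hcardSQ] at h
  refine tangentBound_of_sel (𝒟 T) s r SQ (Count.LocCond.extend L₀ SQ) key.1 key2 ?_
  intro c hc
  obtain ⟨rr, hrr, hlift, hD⟩ := hc
  obtain ⟨h1, h2, h3, h4⟩ := h𝒟 T _ hD
  obtain ⟨c', hc'⟩ := hBr 𝒪 p s c rr hrr hlift h1 SQ
    (fun q hq => h3 q q.2 (fun h => hq (hSQ q h)))
  refine ⟨c', hc', Count.mem_Sel.2 fun q => ?_⟩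
  by_cases hq : q.1 ∈ S₀
  · rw [Count.LocCond.extend_of_mem _ _ q hq]
    exact hL₀mem ⟨q.1, hq⟩ SQ c' rr hrr (fun g => by rw [hlift, hc']) ⟨T, hD⟩
  · rw [Count.LocCond.extend_of_not_mem _ _ q hq]
    exact AddSubgroup.mem_top _

end

/-- **GLUE**: the block statements imply `ArithStatement`. -/
theorem arithStatement
    (hContract : ∀ (p : ℕ) [Fact p.Prime], p ≠ 2 → ∀ S : Finset Nat.Primes,
      ExtCitation.pPrime p ∈ S → Nonempty (Contract S p))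
    (hEC : ∀ (p : ℕ) [Fact p.Prime], p ≠ 2 → ECStatement p)
    (hSel : SelStatement) (hMin : LocMinStatement) (hTW : LocTWStatement)
    (hBr : BridgeStatement) (hOrd : OrdStatement) (hFlat : FlatStatement) : ArithStatement := by
  intro 𝒪 _ _ _ p _ _ hp2 s hs S Smin hpSmin hSmin hS hmin
  refine ⟨arithHalf hp2 (hContract p hp2) (hEC p hp2) hSel hMin hTW hBr s hs S Smin hpSmin hSmin hS
    hmin (fun ρ => ρ.IsStrictOrdinaryAt p) (hOrd 𝒪 p hp2 s hs) (condSO 𝒪 p Smin) ?_,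
    arithHalf hp2 (hContract p hp2) (hEC p hp2) hSel hMin hTW hBr s hs S Smin hpSmin hSmin hS
    hmin (fun ρ => ρ.IsFlatAt p) (hFlat 𝒪 p hp2 s hs) (condFl 𝒪 p Smin) ?_⟩
  · intro T ρ h
    exact ⟨h.1.1, h.1.2.1, h.1.2.2, h.2⟩
  · intro T ρ h
    exact ⟨h.1.1, h.1.2.1, h.1.2.2, h.2⟩

end Fermat.Agent.S56.Top
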